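/-
Reducibility of mod p representations of elliptic curves over ℚ: basic definitions
(task S13/S51).
-/
import Fermat.Prelude.Def_FLTPrelim_ModularRep
import Fermat.Prelude.Def_FLTPrelim_Ramification
import Fermat.Prelude.Def_FLTPrelim_CofixedLine
import Mathlib.AlgebraicGeometry.EllipticCurve.DivisionPolynomial.Degree
import Mathlib.FieldTheory.IsAlgClosed.AlgebraicClosure
import Mathlib.LinearAlgebra.FiniteDimensional.Defs

set_option autoImplicit false

open WeierstrassCurve WeierstrassCurve.Affine.Point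

open scoped WeierstrassCurve.Affine

namespace FLTA.EllReducible

/-- `p`-torsion points of `E` over `ℚ̄`. -/
noncomputable abbrev Tors (E : WeierstrassCurve ℚ) (p : ℕ) :=
  Submodule.torsionBy ℤ (E⁄(AlgebraicClosure ℚ)).Point p

/-- A line in `E[p]` stable under Galois. -/
structure IsStableLine (E : WeierstrassCurve ℚ) (p : ℕ)
    (N : Submodule (ZMod p) (Tors E p)) : Prop where
  stable : IsGaloisStable ℚ N
  ne_bot : N ≠ ⊥
  ne_top : N ≠ ⊤

/-- Galois acts trivially on `N`. -/
def SubTrivial (E : WeierstrassCurve ℚ) (p : ℕ)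
    (N : Submodule (ZMod p) (Tors E p)) : Prop :=
  ∀ σ : AlgebraicClosure ℚ ≃ₐ[ℚ] AlgebraicClosure ℚ, ∀ x ∈ N, σ • x = x

/-- Galois acts trivially on `E[p]/N`. -/
def QuotTrivial (E : WeierstrassCurve ℚ) (p : ℕ)
    (N : Submodule (ZMod p) (Tors E p)) : Prop :=
  ∀ σ : AlgebraicClosure ℚ ≃ₐ[ℚ] AlgebraicClosure ℚ, ∀ x : Tors E p, σ • x - x ∈ N

lemma IsStableLine.hasGaloisStableCofixedLine {E : WeierstrassCurve ℚ} {p : ℕ}
    {N : Submodule (ZMod p) (Tors E p)} (hN : IsStableLine E p N) (h : QuotTrivial E p N) :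
    HasGaloisStableCofixedLine (K := AlgebraicClosure ℚ) ℚ E p :=
  ⟨N, hN.stable, hN.ne_bot, hN.ne_top, h⟩

end FLTA.EllReducible
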