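import Mathlib
import Fermat.Prelude.Def_FLTPrelim_Ramification

/-!
# A rational line forces an integral torsion x-coordinate

Let `f` be an integer polynomial whose leading coefficient is the prime `p`, and `S` a Galois
stable set of roots of `f` in `ℚ̄`, smaller than `deg f`.  Then some root of `f` is integral at
any place above `p`: otherwise the product over `S` is a rational number of valuation at least
`|1/p|`, the other roots have valuation `> 1`, and the constant term would not be integral.
-/

set_option autoImplicit false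

noncomputable section

open Polynomial

namespace FLTA.EllReducible

local notation "Qbar" => AlgebraicClosure ℚ

lemma isGalois_qbar : IsGalois ℚ Qbar := by
  have : Algebra.IsAlgebraic ℚ Qbar := AlgebraicClosure.isAlgebraic ℚ
  have : IsAlgClosure ℚ Qbar := ⟨inferInstance, inferInstance⟩
  have : Normal ℚ Qbar := IsAlgClosure.normal ℚ Qbar
  exact ⟨⟩

lemma one_lt_valuation_prod (A : ValuationSubring Qbar) {m : Multiset Qbar}
    (hm : ∀ x ∈ m, 1 < A.valuation x) (hne : m ≠ 0) : 1 < A.valuation m.prod := by
  induction m using Multiset.induction_on with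
  | empty => exact absurd rfl hne
  | cons a t ih =>
    have ha : 1 < A.valuation a := hm a (Multiset.mem_cons_self a t)
    by_cases ht : t = 0
    · simp [ht, ha]
    · rw [Multiset.prod_cons, map_mul]
      exact ha.trans_le (le_mul_of_one_le_right'
        (ih (fun x hx => hm x (Multiset.mem_cons_of_mem hx)) ht).le)

/-- A rational number which is not integral at `A` has at least a `p` in its denominator. -/
lemma one_le_valuation_p_mul_rat (A : ValuationSubring Qbar) {p : ℕ} (hp : p.Prime)
    (hA : A.LiesOverPrime p) {r : ℚ} (hr : 1 < A.valuation (r : Qbar)) :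
    1 ≤ A.valuation ((p : Qbar) * (r : Qbar)) := by
  have hint : ∀ z : ℤ, A.valuation (z : Qbar) ≤ 1 := fun z =>
    (A.valuation_le_one_iff _).2 (intCast_mem A z)
  have hpv : A.valuation (p : Qbar) < 1 := (A.mem_nonunits_iff).1 hA
  have hden0 : ((r.den : ℤ) : Qbar) ≠ 0 := by exact_mod_cast r.den_pos.ne'
  have hrd : (r : Qbar) * ((r.den : ℤ) : Qbar) = (r.num : Qbar) := by
    rw [Int.cast_natCast]; exact_mod_cast Rat.mul_den_eq_num r
  have hdvd : (p : ℤ) ∣ (r.den : ℤ) := by
    by_contra hnd
    obtain ⟨u, v, huv⟩ : IsCoprime (p : ℤ) (r.den : ℤ) :=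
      (Nat.prime_iff_prime_int.1 hp).coprime_iff_not_dvd.2 hnd
    have key : A.valuation ((r.den : ℤ) : Qbar) = 1 := by
      refine le_antisymm (hint _) ?_
      by_contra hlt
      rw [not_le] at hlt
      have h1 : A.valuation ((u * p : ℤ) : Qbar) < 1 := by
        rw [Int.cast_mul, map_mul]
        exact (mul_le_of_le_one_left' (hint u)).trans_lt (by exact_mod_cast hpv)
      have h2 : A.valuation ((v * (r.den : ℤ) : ℤ) : Qbar) < 1 := by
        rw [Int.cast_mul, map_mul]
        exact (mul_le_of_le_one_left' (hint v)).trans_lt hlt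
      have h3 := A.valuation.map_add_lt h1 h2
      rw [← Int.cast_add, huv, Int.cast_one, map_one] at h3
      exact lt_irrefl _ h3
    have : A.valuation (r : Qbar) ≤ 1 := by
      have h := congrArg A.valuation hrd
      rw [map_mul, key, mul_one] at h
      exact h ▸ hint _
    exact not_le.2 hr this
  obtain ⟨e, he⟩ := hdvd
  -- `p * r * e = num`, and `num` is prime to `p`
  have hnum : A.valuation (r.num : Qbar) = 1 := by
    refine le_antisymm (hint _) ?_
    by_contra hlt
    rw [not_le] at hlt
    obtain ⟨u, v, huv⟩ : IsCoprime r.num (r.den : ℤ) := r.isCoprime_num_den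
    have h1 : A.valuation ((u * r.num : ℤ) : Qbar) < 1 := by
      rw [Int.cast_mul, map_mul]
      exact (mul_le_of_le_one_left' (hint u)).trans_lt hlt
    have h2 : A.valuation ((v * (r.den : ℤ) : ℤ) : Qbar) < 1 := by
      rw [he, ← mul_assoc, mul_comm v, mul_assoc, Int.cast_mul, map_mul]
      exact (mul_le_of_le_one_right' (hint _)).trans_lt (by exact_mod_cast hpv)
    have h3 := A.valuation.map_add_lt h1 h2
    rw [← Int.cast_add, huv, Int.cast_one, map_one] at h3
    exact lt_irrefl _ h3
  have h : ((p : Qbar) * (r : Qbar)) * (e : Qbar) = (r.num : Qbar) := by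
    rw [← hrd, he]; push_cast; ring
  have hv := congrArg A.valuation h
  rw [map_mul, hnum] at hv
  calc (1 : A.ValueGroup) = A.valuation ((p : Qbar) * (r : Qbar)) * A.valuation (e : Qbar) := hv.symm
    _ ≤ A.valuation ((p : Qbar) * (r : Qbar)) := mul_le_of_le_one_right' (hint e)

/-- Core lemma: a Galois stable, non-empty, small set of roots forces an `A`-integral root. -/
theorem exists_root_mem_of_stable (f : ℤ[X]) {p : ℕ} (hp : p.Prime)
    (hlead : f.leadingCoeff = p) (A : ValuationSubring Qbar) (hA : A.LiesOverPrime p)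
    (S : Finset Qbar) (hS : S.Nonempty)
    (hroot : ∀ x ∈ S, (f.map (Int.castRingHom Qbar)).IsRoot x)
    (hcard : S.card < f.natDegree)
    (hstable : ∀ σ : Qbar ≃ₐ[ℚ] Qbar, ∀ x ∈ S, σ x ∈ S) :
    ∃ x, (f.map (Int.castRingHom Qbar)).IsRoot x ∧ x ∈ A := by
  by_contra hno
  push Not at hno
  set g := f.map (Int.castRingHom Qbar) with hg
  have hinj : Function.Injective (Int.castRingHom Qbar) := Int.cast_injective
  have hf0 : f ≠ 0 := fun h => by simp [h] at hlead; exact hp.ne_zero (by exact_mod_cast hlead.symm)
  have hg0 : g ≠ 0 := (Polynomial.map_ne_zero_iff hinj).2 hf0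
  have hlg : g.leadingCoeff = (p : Qbar) := by
    rw [hg, Polynomial.leadingCoeff_map_of_injective hinj, hlead]; simp
  have hdg : g.natDegree = f.natDegree := Polynomial.natDegree_map_eq_of_injective hinj f
  have hsplit : g.Splits := IsAlgClosed.splits g
  have hval : ∀ x, g.IsRoot x → 1 < A.valuation x := fun x hx =>
    not_le.1 fun hle => hno x hx ((A.valuation_le_one_iff x).1 hle)
  have hle : S.val ≤ g.roots := by
    rw [Multiset.le_iff_subset S.nodup]
    exact fun x hx => (Polynomial.mem_roots hg0).2 (hroot x hx)
  obtain ⟨rest, hrest⟩ := Multiset.le_iff_exists_add.1 hle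
  have hrest0 : rest ≠ 0 := by
    intro h
    rw [h, add_zero] at hrest
    have := hsplit.natDegree_eq_card_roots
    rw [hrest, hdg] at this
    simp at this
    omega
  -- the product over `S` is rational
  obtain ⟨r, hr⟩ : ∃ r : ℚ, (r : Qbar) = S.val.prod := by
    have hfix : ∀ σ : Qbar ≃ₐ[ℚ] Qbar, σ S.val.prod = S.val.prod := by
      intro σ
      have himg : S.image σ = S :=
        Finset.eq_of_subset_of_card_le
          (Finset.image_subset_iff.2 (hstable σ))
          (by rw [Finset.card_image_of_injective S σ.injective])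
      conv_rhs => rw [← himg]
      rw [Finset.image_val_of_injOn σ.injective.injOn, map_multiset_prod]
    have : IsGalois ℚ Qbar := isGalois_qbar
    obtain ⟨r, hr⟩ := (InfiniteGalois.mem_range_algebraMap_iff_fixed (k := ℚ) _).2 hfix
    exact ⟨r, by rw [← hr]; simp⟩
  have hSval : 1 < A.valuation (r : Qbar) := by
    rw [hr]
    exact one_lt_valuation_prod A (fun x hx => hval x (hroot x hx))
      (by simpa using hS.ne_empty)
  have hrv : 1 < A.valuation rest.prod :=
    one_lt_valuation_prod A (fun x hx => hval x ((Polynomial.mem_roots hg0).1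
      (by rw [hrest]; exact Multiset.mem_add.2 (Or.inr hx)))) hrest0
  have hc := hsplit.coeff_zero_eq_leadingCoeff_mul_prod_roots
  rw [hlg, hrest, Multiset.prod_add, ← hr] at hc
  have hle1 : A.valuation (g.coeff 0) ≤ 1 := by
    rw [hg, Polynomial.coeff_map]
    exact (A.valuation_le_one_iff _).2 (intCast_mem A _)
  rw [hc] at hle1
  simp only [map_mul, map_pow, Valuation.map_neg, map_one, one_pow, one_mul] at hle1
  have h1 : 1 ≤ A.valuation (p : Qbar) * A.valuation (r : Qbar) := by
    rw [← map_mul]; exact one_le_valuation_p_mul_rat A hp hA hSval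
  rw [← mul_assoc] at hle1
  exact not_le.2 (hrv.trans_le (le_mul_of_one_le_left' h1)) hle1

end FLTA.EllReducible
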