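/-
Owner: helper21.  A Galois-stable line forces a `p`-torsion point with `p`-integral
`x`-coordinate at every place over `p` (product argument on the division polynomial).
-/
import Fermat.Agent.EllReducible.Basic
import Fermat.Agent.EllReducible.IntegralTorsion
import Fermat.Agent.EllTorsion.Card
import Fermat.Agent.EllTorsion.MulFormula

set_option autoImplicit false

open WeierstrassCurve WeierstrassCurve.Affine.Point Polynomial

open scoped WeierstrassCurve.Affine

namespace FLTA.EllReducible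

local notation "Qbar" => AlgebraicClosure ℚ

/-- Core: non-`⊤`, non-`⊥` Galois stable submodule gives an integral torsion point. -/
theorem exists_torsion_integral_x (W : WeierstrassCurve ℤ) (hΔ : W.Δ ≠ 0) {p : ℕ}
    (hp : p.Prime) (hp2 : p ≠ 2)
    {N : Submodule (ZMod p) (Tors (W.map (Int.castRingHom ℚ)) p)}
    (hN : IsStableLine (W.map (Int.castRingHom ℚ)) p N)
    (A : ValuationSubring Qbar) (hA : A.LiesOverPrime p) :
    ∃ (x y : Qbar)
      (h : ((W.map (Int.castRingHom ℚ))⁄Qbar).toAffine.Nonsingular x y),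
      p • (Affine.Point.some x y h) = 0 ∧ x ∈ A := by
  classical
  set E := (W.map (Int.castRingHom ℚ))⁄Qbar with hE
  have hEeq : E = W.map (Int.castRingHom Qbar) := by
    rw [hE]
    show (W.map (Int.castRingHom ℚ)).map (algebraMap ℚ Qbar) = _
    rw [WeierstrassCurve.map_map]
    congr 1
  have hodd : Odd p := hp.odd_of_ne_two hp2
  have h3 : 3 ≤ p := by have := hp.two_le; omega
  set f : ℤ[X] := W.preΨ' p with hf
  have hpZ : ((p : ℕ) : ℤ) ≠ 0 := by exact_mod_cast hp.ne_zero
  have hlead : f.leadingCoeff = (p : ℤ) := by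
    rw [hf, W.leadingCoeff_preΨ' hpZ, if_neg (Nat.not_even_iff_odd.2 hodd)]
  have hdeg : f.natDegree = (p ^ 2 - 1) / 2 := by
    rw [hf, W.natDegree_preΨ' hpZ, if_neg (Nat.not_even_iff_odd.2 hodd)]
  have hmap : E.preΨ' p = f.map (Int.castRingHom Qbar) := by
    rw [hEeq, WeierstrassCurve.map_preΨ']
  have hEll : E.IsElliptic := ⟨by
    rw [hEeq, WeierstrassCurve.map_Δ, isUnit_iff_ne_zero, eq_intCast]
    exact_mod_cast hΔ⟩
  have hiff : ∀ {x y : Qbar} (h : E.toAffine.Nonsingular x y),
      p • Affine.Point.some x y h = 0 ↔ (f.map (Int.castRingHom Qbar)).IsRoot x := fun h => by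
    rw [← hmap]; exact EllTorsion.nsmul_eq_zero_iff_of_odd h hodd
  -- the finite set of x-coordinates of `N`
  have hcardT : Nat.card (Tors (W.map (Int.castRingHom ℚ)) p) = p ^ 2 :=
    EllTorsion.natCard_torsionBy_intModel W hΔ hp.ne_zero
  have : Finite (Tors (W.map (Int.castRingHom ℚ)) p) :=
    Nat.finite_of_card_ne_zero (by rw [hcardT]; exact pow_ne_zero 2 hp.ne_zero)
  have hcardN : Nat.card N ≤ p := by
    have hdvd : Nat.card N ∣ p ^ 2 := by
      rw [← hcardT]; exact AddSubgroup.card_addSubgroup_dvd_card N.toAddSubgroup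
    obtain ⟨i, hi, hi'⟩ := (Nat.dvd_prime_pow hp).1 hdvd
    rcases (show i ≤ 1 ∨ i = 2 by omega) with h1 | h2
    · rw [hi']; simpa using Nat.pow_le_pow_right hp.pos h1
    · exfalso
      subst h2
      apply hN.ne_top
      have htop : N.toAddSubgroup = ⊤ :=
        N.toAddSubgroup.card_eq_iff_eq_top.1 (hi'.trans hcardT.symm)
      rw [Submodule.eq_top_iff']
      intro x
      exact (htop ▸ AddSubgroup.mem_top x : x ∈ N.toAddSubgroup)
  set T : Set Qbar := {x | ∃ (y : Qbar) (h : E.toAffine.Nonsingular x y) (t : Tors (W.map (Int.castRingHom ℚ)) p),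
    t ∈ N ∧ (t : (E).toAffine.Point) = Affine.Point.some x y h} with hT
  let xc : E.toAffine.Point → Qbar := fun P => match P with
    | .zero => 0
    | .some x _ _ => x
  have hTsub : T ⊆ Set.range (fun t : N => xc (t.1.1 : E.toAffine.Point)) := by
    rintro x ⟨y, h, t, ht, htx⟩
    exact ⟨⟨t, ht⟩, by simp only [htx, xc]⟩
  have hTfin : T.Finite := (Set.finite_range _).subset hTsub
  have hTne : hTfin.toFinset.Nonempty := by
    obtain ⟨t, ht, ht0⟩ := N.ne_bot_iff.1 hN.ne_bot
    obtain ⟨P, hP⟩ := t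
    cases P with
    | zero => exact absurd (Subtype.ext rfl) ht0
    | some x y h => exact ⟨x, hTfin.mem_toFinset.2 ⟨y, h, ⟨_, hP⟩, ht, rfl⟩⟩
  have hTcard : hTfin.toFinset.card < f.natDegree := by
    have h1 : T.ncard ≤ p :=
      le_trans (Set.ncard_le_ncard hTsub (Set.finite_range _))
        (le_trans (Finite.card_range_le _) hcardN)
    rw [← Set.ncard_eq_toFinset_card T hTfin, hdeg]
    have : 3 * p ≤ p ^ 2 := by nlinarith
    omega
  have hroot : ∀ x ∈ hTfin.toFinset, (f.map (Int.castRingHom Qbar)).IsRoot x := by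
    intro x hx
    obtain ⟨y, h, t, -, htx⟩ := hTfin.mem_toFinset.1 hx
    rw [← hiff h, ← htx]
    have := t.2
    rw [Submodule.mem_torsionBy_iff] at this
    rwa [← natCast_zsmul]
  have hstable : ∀ σ : Qbar ≃ₐ[ℚ] Qbar, ∀ x ∈ hTfin.toFinset, σ x ∈ hTfin.toFinset := by
    intro σ x hx
    obtain ⟨y, h, t, ht, htx⟩ := hTfin.mem_toFinset.1 hx
    have hmem : σ • t ∈ N := hN.stable σ t ht
    have hco : ((σ • t : Tors (W.map (Int.castRingHom ℚ)) p) : E.toAffine.Point)
        = σ • (t : E.toAffine.Point) := rfl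
    refine hTfin.mem_toFinset.2 ⟨σ y, ?_, σ • t, hmem, ?_⟩
    · exact (Affine.baseChange_nonsingular _ (f := σ.toAlgHom) σ.injective x y).2 h
    · rw [hco, htx, algEquiv_smul_def]
      rfl
  obtain ⟨x, hx, hxA⟩ := exists_root_mem_of_stable f hp hlead A hA _ hTne hroot hTcard hstable
  obtain ⟨y, hy⟩ : ∃ y, E.toAffine.Equation x y := by
    obtain ⟨y, hy⟩ := IsAlgClosed.exists_root
      (C 1 * Polynomial.X ^ 2 + C (E.a₁ * x + E.a₃) * Polynomial.X
        + C (-(x ^ 3 + E.a₂ * x ^ 2 + E.a₄ * x + E.a₆)))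
      (by rw [Polynomial.degree_quadratic one_ne_zero]; decide)
    refine ⟨y, (Affine.equation_iff _ _).2 ?_⟩
    simp only [IsRoot, eval_add, eval_mul, eval_C, eval_pow, eval_X] at hy
    linear_combination hy
  have hns := (Affine.equation_iff_nonsingular.1 hy : E.toAffine.Nonsingular x y)
  exact ⟨x, y, hns, (hiff hns).2 hx, hxA⟩

end FLTA.EllReducible
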