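/-
A stable line in a two-dimensional representation over `ZMod p`: unipotent elements and
elements moving everything into a proper submodule act trivially on the line or on the quotient.
-/
import Mathlib.LinearAlgebra.FiniteDimensional.Basic
import Mathlib.Algebra.Field.ZMod
import Mathlib.Algebra.Module.ZMod
import Mathlib.Tactic

set_option autoImplicit false

namespace FLTA.EllReducible

variable {p : ℕ} [Fact p.Prime] {V : Type*} [AddCommGroup V] [Module (ZMod p) V]
variable {N M : Submodule (ZMod p) V}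

/-- A proper non-zero subspace of a plane is a line: it is generated by any non-zero element. -/
lemma eq_of_le_of_ne (hV : Module.finrank (ZMod p) V = 2) (hN : N ≠ ⊤) {W : Submodule (ZMod p) V}
    (hW : W ≠ ⊥) (hle : W ≤ N) : W = N := by
  have : Module.Finite (ZMod p) V := Module.finite_of_finrank_eq_succ hV
  have h1 : Module.finrank (ZMod p) N < 2 := hV ▸ Submodule.finrank_lt hN
  have h2 : 1 ≤ Module.finrank (ZMod p) W := Submodule.one_le_finrank_iff.mpr hW
  exact Submodule.eq_of_le_of_finrank_le hle (by omega)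

lemma span_singleton_eq (hV : Module.finrank (ZMod p) V = 2) (hN : N ≠ ⊤) {x : V}
    (hx : x ∈ N) (hx0 : x ≠ 0) : Submodule.span (ZMod p) {x} = N :=
  eq_of_le_of_ne hV hN (by simpa using hx0) (by simpa using hx)

/-- An endomorphism with `(f-1)² = 0` preserving a line acts trivially on it and on the
quotient. -/
lemma trivial_of_unipotent (hV : Module.finrank (ZMod p) V = 2) (hN0 : N ≠ ⊥) (hN : N ≠ ⊤)
    (f : Module.End (ZMod p) V) (hf : ∀ x ∈ N, f x ∈ N)
    (hu : ∀ v, f (f v - v) = f v - v) :
    (∀ x ∈ N, f x = x) ∧ ∀ v, f v - v ∈ N := by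
  have h1 : ∀ x ∈ N, f x = x := by
    intro x hx
    by_contra hne
    have hmem : f x - x ∈ N := N.sub_mem (hf x hx) hx
    have hne0 : f x - x ≠ 0 := sub_ne_zero.mpr hne
    have hspan := span_singleton_eq hV hN hmem hne0
    have hx' : x ∈ Submodule.span (ZMod p) {f x - x} := hspan.symm ▸ hx
    obtain ⟨c, hc⟩ := Submodule.mem_span_singleton.mp hx'
    apply hne
    calc f x = f (c • (f x - x)) := by rw [hc]
      _ = c • (f x - x) := by rw [map_smul, hu]
      _ = x := hc
  refine ⟨h1, fun v => ?_⟩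
  by_contra hv
  obtain ⟨n, hn, hn0⟩ := Submodule.exists_mem_ne_zero_of_ne_bot hN0
  -- the kernel of `f - 1` contains `N` and `f v - v`, so it is everything
  let K : Submodule (ZMod p) V := LinearMap.ker (f - 1)
  have hmemK : ∀ w, w ∈ K ↔ f w = w := fun w => by
    simp [K, LinearMap.mem_ker, sub_eq_zero]
  have hNK : N ≤ K := fun x hx => (hmemK x).mpr (h1 x hx)
  by_cases hK : K = ⊤
  · exact hv (by rw [(hmemK v).mp (hK ▸ Submodule.mem_top), sub_self]; exact N.zero_mem)
  · exact hv (eq_of_le_of_ne hV hK hN0 hNK ▸ (hmemK _).mpr (hu v))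

/-- If elements of `S` move everything into a proper submodule `M`, then they all fix a stable
line `N` pointwise, or they all fix the quotient by `N`. -/
lemma trivial_or_trivial_of_sub_mem (hV : Module.finrank (ZMod p) V = 2) (hN : N ≠ ⊤)
    (hM : M ≠ ⊤) (S : Set (Module.End (ZMod p) V)) (hSN : ∀ f ∈ S, ∀ x ∈ N, f x ∈ N)
    (hS : ∀ f ∈ S, ∀ v, f v - v ∈ M) :
    (∀ f ∈ S, ∀ x ∈ N, f x = x) ∨ ∀ f ∈ S, ∀ v, f v - v ∈ N := by
  by_cases h : N ⊓ M = ⊥
  · refine Or.inl fun f hf x hx => sub_eq_zero.mp ?_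
    have : f x - x ∈ N ⊓ M := ⟨N.sub_mem (hSN f hf x hx) hx, hS f hf x⟩
    simpa [h] using this
  · refine Or.inr fun f hf v => ?_
    have e1 := eq_of_le_of_ne hV hM h inf_le_right
    have e2 := eq_of_le_of_ne hV hN h inf_le_left
    exact e2 ▸ e1.symm ▸ hS f hf v

end FLTA.EllReducible
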