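/-
Stable lines: the plane `E[p]`, existence of lines from reducibility, finite level.
-/
import Fermat.Agent.EllReducible.Basic
import Fermat.Agent.EllReducible.LinearAlgebra
import Fermat.Agent.EllTorsion.Card
import Fermat.Prelude.Def_EllipticCurve_FrobeniusTrace
import Mathlib.FieldTheory.IntermediateField.Adjoin.Basic
import Mathlib.FieldTheory.IsAlgClosed.AlgebraicClosure
import Mathlib.FieldTheory.AbsoluteGaloisGroup
import Mathlib.LinearAlgebra.Dimension.Constructions

set_option autoImplicit false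

open WeierstrassCurve WeierstrassCurve.Affine.Point

open scoped WeierstrassCurve.Affine

namespace FLTA.EllReducible

theorem natCard_tors (E : WeierstrassCurve ℚ) (hE : E.Δ ≠ 0) {p : ℕ} (hp : p.Prime) :
    Nat.card (Tors E p) = p ^ 2 := by
  haveI : E.IsElliptic := ⟨isUnit_iff_ne_zero.mpr hE⟩
  exact FLTA.EllTorsion.natCard_torsionBy_baseChange E (Nat.cast_ne_zero.mpr hp.ne_zero)

theorem finite_tors (E : WeierstrassCurve ℚ) (hE : E.Δ ≠ 0) {p : ℕ} (hp : p.Prime) :
    Finite (Tors E p) :=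
  Nat.finite_of_card_ne_zero (by rw [natCard_tors E hE hp]; exact pow_ne_zero _ hp.ne_zero)

theorem finrank_tors (E : WeierstrassCurve ℚ) (hE : E.Δ ≠ 0) {p : ℕ} [hp : Fact p.Prime] :
    Module.finrank (ZMod p) (Tors E p) = 2 := by
  have := finite_tors E hE hp.out
  have h := Module.natCard_eq_pow_finrank (K := ZMod p) (V := Tors E p)
  rw [natCard_tors E hE hp.out, Nat.card_zmod] at h
  exact (Nat.pow_right_injective hp.out.two_le h).symm

theorem nontrivial_tors (E : WeierstrassCurve ℚ) (hE : E.Δ ≠ 0) {p : ℕ} (hp : p.Prime) :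
    Nontrivial (Tors E p) := by
  have := finite_tors E hE hp
  rw [← Finite.one_lt_card_iff_nontrivial, natCard_tors E hE hp]
  exact Nat.one_lt_pow two_ne_zero hp.one_lt

theorem exists_stableLine (E : WeierstrassCurve ℚ) (hE : E.Δ ≠ 0) {p : ℕ} (hp : p.Prime)
    (hred : ¬ GaloisRepIsIrreducible (K := AlgebraicClosure ℚ) ℚ E p) :
    ∃ N : Submodule (ZMod p) (Tors E p), IsStableLine E p N := by
  by_contra hno
  refine hred ⟨nontrivial_tors E hE hp, fun N hN => ?_⟩
  by_contra h
  rw [not_or] at h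
  exact hno ⟨N, hN, h.1, h.2⟩

/-- The action on `E[p]` factors through a finite extension. -/
theorem exists_finiteLevel (E : WeierstrassCurve ℚ) (hE : E.Δ ≠ 0) {p : ℕ} (hp : p.Prime) :
    ∃ L : IntermediateField ℚ (AlgebraicClosure ℚ), FiniteDimensional ℚ L ∧
      ∀ σ : AlgebraicClosure ℚ ≃ₐ[ℚ] AlgebraicClosure ℚ, (∀ x ∈ L, σ x = x) →
        ∀ v : Tors E p, σ • v = v := by
  have := finite_tors E hE hp
  let coords : (E⁄(AlgebraicClosure ℚ)).Point → Set (AlgebraicClosure ℚ) := fun P =>
    match P with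
    | .zero => ∅
    | .some x y _ => {x, y}
  let S : Set (AlgebraicClosure ℚ) := ⋃ v : Tors E p, coords v.1
  have hS : S.Finite := Set.finite_iUnion fun v => by
    rcases v.1 with _ | ⟨x, y, h⟩ <;> simp [coords]
  have := hS.to_subtype
  refine ⟨IntermediateField.adjoin ℚ S,
    IntermediateField.finiteDimensional_adjoin fun x _ =>
      ((AlgebraicClosure.isAlgebraic ℚ).isAlgebraic x).isIntegral, fun σ hσ v => Subtype.ext ?_⟩
  show σ • (v : (E⁄(AlgebraicClosure ℚ)).Point) = v
  have hmem : ∀ z ∈ coords v.1, σ z = z := fun z hz =>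
    hσ z (IntermediateField.subset_adjoin ℚ S (Set.mem_iUnion.mpr ⟨v, hz⟩))
  rw [algEquiv_smul_def]
  generalize (v : (E⁄(AlgebraicClosure ℚ)).Point) = P at hmem ⊢
  rcases P with _ | ⟨x, y, h⟩
  · rfl
  · rw [Affine.Point.map_some, Affine.Point.some.injEq]
    exact ⟨hmem x (by simp [coords]), hmem y (by simp [coords])⟩

end FLTA.EllReducible
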