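/-
Local behaviour of `E[p]` at a semistable place.
-/
import Fermat.Agent.EllReducible.Line
import Fermat.Agent.EllReducible.Eisenstein
import Fermat.Agent.EllReduction.Api

set_option autoImplicit false

open WeierstrassCurve WeierstrassCurve.Affine.Point

open scoped WeierstrassCurve.Affine

namespace FLTA.EllReducible

lemma nsmul_coe_eq_zero {E : WeierstrassCurve ℚ} {p : ℕ} (v : Tors E p) :
    p • (v : (E⁄(AlgebraicClosure ℚ)).Point) = 0 := by
  have := (Submodule.mem_torsionBy_iff _ _).mp v.2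
  rwa [← natCast_zsmul]

lemma semistableAt (W : WeierstrassCurve ℤ) (hW : W.IsSemistableModel) {q : ℕ} (hq : q.Prime) :
    ¬ (q : ℤ) ∣ W.Δ ∨ ¬ (q : ℤ) ∣ W.c₄ :=
  (em ((q : ℤ) ∣ W.Δ)).elim (fun h => Or.inr (hW q hq h)) Or.inl

/-- Away from `p`, inertia acts unipotently. -/
theorem inertia_unipotent (W : WeierstrassCurve ℤ) (hΔ : W.Δ ≠ 0)
    (hW : W.IsSemistableModel) {p q : ℕ} (hp : p.Prime) (hq : q.Prime) (hqp : q ≠ p)
    (A : ValuationSubring (AlgebraicClosure ℚ)) (hA : A.LiesOverPrime q)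
    (σ : AlgebraicClosure ℚ ≃ₐ[ℚ] AlgebraicClosure ℚ) (hσ : σ ∈ A.inertiaSubgroupIn ℚ)
    (v : Tors (W.map (Int.castRingHom ℚ)) p) :
    σ • (σ • v - v) = σ • v - v := by
  refine Subtype.ext ?_
  exact FLTA.EllReduction.smul_smul_sub_eq hq hA (semistableAt W hW hq) hΔ
    (fun h => hqp ((Nat.prime_dvd_prime_iff_eq hq hp).mp h)) hσ hσ (nsmul_coe_eq_zero v)

/-- At `p`, if there is a stable line, inertia moves everything into a proper subgroup. -/
theorem exists_proper_sub_mem (W : WeierstrassCurve ℤ) (hΔ : W.Δ ≠ 0)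
    (hW : W.IsSemistableModel) {p : ℕ} (hp : p.Prime) (hp2 : p ≠ 2)
    {N : Submodule (ZMod p) (Tors (W.map (Int.castRingHom ℚ)) p)}
    (hN : IsStableLine (W.map (Int.castRingHom ℚ)) p N)
    (A : ValuationSubring (AlgebraicClosure ℚ)) (hA : A.LiesOverPrime p) :
    ∃ M : Submodule (ZMod p) (Tors (W.map (Int.castRingHom ℚ)) p), M ≠ ⊤ ∧
      ∀ σ ∈ A.inertiaSubgroupIn ℚ, ∀ v : Tors (W.map (Int.castRingHom ℚ)) p, σ • v - v ∈ M := by
  have : Fact p.Prime := ⟨hp⟩
  let E := W.map (Int.castRingHom ℚ)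
  let ι : Tors E p →+ (E⁄(AlgebraicClosure ℚ)).Point := (Tors E p).subtype.toAddMonoidHom
  let M := AddSubgroup.toZModSubmodule p ((FLTA.EllReduction.E1Z W A).comap ι)
  refine ⟨M, fun htop => ?_, fun σ hσ v => ?_⟩
  · obtain ⟨x, y, h, hpP, hx⟩ := exists_torsion_integral_x W hΔ hp hp2 hN A hA
    let P : Tors E p := ⟨Affine.Point.some x y h,
      (Submodule.mem_torsionBy_iff _ _).mpr (by rwa [natCast_zsmul])⟩
    have hP : P ∈ M := htop ▸ Submodule.mem_top
    exact (show x ∉ A from hP) hx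
  · show ((σ • v - v : Tors E p) : (E⁄(AlgebraicClosure ℚ)).Point) ∈ FLTA.EllReduction.E1Z W A
    show σ • (v : (E⁄(AlgebraicClosure ℚ)).Point) - v ∈ FLTA.EllReduction.E1Z W A
    by_cases hgood : (p : ℤ) ∣ W.Δ
    · refine FLTA.EllReduction.mem_E1Z_of_mult hp hA hΔ hgood (hW p hp hgood)
        (FLTA.EllReduction.smul_sub_mem_E0Z hp hA (semistableAt W hW hp) hΔ hσ _) ?_
      have h0 : p • (σ • (v : (E⁄(AlgebraicClosure ℚ)).Point) - v) = 0 :=
        nsmul_coe_eq_zero (σ • v - v)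
      exact h0 ▸ (FLTA.EllReduction.E1Z W A).zero_mem
    · exact FLTA.EllReduction.smul_sub_mem_E1Z hp hA hσ
        (FLTA.EllReduction.mem_E0Z_of_good hp hA hgood _)

end FLTA.EllReducible
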