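/-
For a semistable integral model, a Galois-stable line in `E[p]` has either trivial action or
trivial quotient action.
-/
import Fermat.Agent.EllReducible.Local
import Fermat.Agent.Galois.PlacesFinite

set_option autoImplicit false

open WeierstrassCurve WeierstrassCurve.Affine.Point

open scoped WeierstrassCurve.Affine Pointwise

namespace FLTA.EllReducible

/-- A finite-level stable property of `Γ` holding on all inertia groups holds everywhere: the
submodule form. -/
theorem forall_smul_eq_of_inertia {E : WeierstrassCurve ℚ} (hE : E.Δ ≠ 0) {p : ℕ}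
    [Fact p.Prime] {N : Submodule (ZMod p) (Tors E p)} (hN : IsGaloisStable ℚ N)
    (h : ∀ q : ℕ, q.Prime → ∀ A : ValuationSubring (AlgebraicClosure ℚ), A.LiesOverPrime q →
      ∀ σ ∈ A.inertiaSubgroupIn ℚ, ∀ x ∈ N, σ • x = x) :
    SubTrivial E p N := by
  let ρ : (AlgebraicClosure ℚ ≃ₐ[ℚ] AlgebraicClosure ℚ) →* Module.End (ZMod p) N :=
    { toFun := fun σ => (galoisRepModuleEnd ℚ E p σ).restrict fun x hx => hN σ x hx
      map_one' := LinearMap.ext fun x => Subtype.ext (one_smul (AlgebraicClosure ℚ ≃ₐ[ℚ] AlgebraicClosure ℚ) x.1)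
      map_mul' := fun σ τ => LinearMap.ext fun x => Subtype.ext (mul_smul σ τ x.1) }
  obtain ⟨L, hL, hLfix⟩ := exists_finiteLevel E hE (Fact.out : p.Prime)
  intro σ x hx
  have := FLTA.Galois.hom_eq_one_of_unramified ρ
    ⟨L, hL, fun τ hτ => LinearMap.ext fun y => Subtype.ext (hLfix τ hτ y.1)⟩
    (fun q hq A hA τ hτ => LinearMap.ext fun y => Subtype.ext (h q hq A hA τ hτ y.1 y.2)) σ
  exact congrArg Subtype.val (LinearMap.congr_fun this ⟨x, hx⟩)

/-- The quotient form. -/
theorem forall_sub_mem_of_inertia {E : WeierstrassCurve ℚ} (hE : E.Δ ≠ 0) {p : ℕ}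
    [Fact p.Prime] {N : Submodule (ZMod p) (Tors E p)} (hN : IsGaloisStable ℚ N)
    (h : ∀ q : ℕ, q.Prime → ∀ A : ValuationSubring (AlgebraicClosure ℚ), A.LiesOverPrime q →
      ∀ σ ∈ A.inertiaSubgroupIn ℚ, ∀ x : Tors E p, σ • x - x ∈ N) :
    QuotTrivial E p N := by
  let ρ : (AlgebraicClosure ℚ ≃ₐ[ℚ] AlgebraicClosure ℚ) →* Module.End (ZMod p) (Tors E p ⧸ N) :=
    { toFun := fun σ => N.mapQ N (galoisRepModuleEnd ℚ E p σ) fun x hx => hN σ x hx
      map_one' := LinearMap.ext fun x => by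
        induction x using Submodule.Quotient.induction_on with
        | _ y => exact congrArg Submodule.Quotient.mk (one_smul (AlgebraicClosure ℚ ≃ₐ[ℚ] AlgebraicClosure ℚ) y)
      map_mul' := fun σ τ => LinearMap.ext fun x => by
        induction x using Submodule.Quotient.induction_on with
        | _ y => exact congrArg Submodule.Quotient.mk (mul_smul σ τ y) }
  obtain ⟨L, hL, hLfix⟩ := exists_finiteLevel E hE (Fact.out : p.Prime)
  intro σ x
  have := FLTA.Galois.hom_eq_one_of_unramified ρ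
    ⟨L, hL, fun τ hτ => LinearMap.ext fun y => by
      induction y using Submodule.Quotient.induction_on with
      | _ z => exact congrArg Submodule.Quotient.mk (hLfix τ hτ z)⟩
    (fun q hq A hA τ hτ => LinearMap.ext fun y => by
      induction y using Submodule.Quotient.induction_on with
      | _ z => exact (Submodule.Quotient.eq N).mpr (h q hq A hA τ hτ z)) σ
  exact (Submodule.Quotient.eq N).mp (LinearMap.congr_fun this (Submodule.Quotient.mk x))

theorem subTrivial_or_quotTrivial_aux {E : WeierstrassCurve ℚ} {p : ℕ} [Fact p.Prime]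
    (hp : p.Prime) (hE : E.Δ ≠ 0) {N : Submodule (ZMod p) (Tors E p)} (hN : IsStableLine E p N)
    (hu : ∀ q : ℕ, q.Prime → q ≠ p → ∀ A : ValuationSubring (AlgebraicClosure ℚ),
      A.LiesOverPrime q → ∀ σ ∈ A.inertiaSubgroupIn ℚ, ∀ v : Tors E p,
        σ • (σ • v - v) = σ • v - v)
    (hM' : ∀ A : ValuationSubring (AlgebraicClosure ℚ), A.LiesOverPrime p →
      ∃ M : Submodule (ZMod p) (Tors E p), M ≠ ⊤ ∧
        ∀ σ ∈ A.inertiaSubgroupIn ℚ, ∀ v : Tors E p, σ • v - v ∈ M) :
    SubTrivial E p N ∨ QuotTrivial E p N := by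
  have hV := finrank_tors E hE (p := p)
  have away : ∀ q : ℕ, q.Prime → q ≠ p → ∀ A : ValuationSubring (AlgebraicClosure ℚ),
      A.LiesOverPrime q → ∀ σ ∈ A.inertiaSubgroupIn ℚ,
      (∀ x ∈ N, σ • x = x) ∧ ∀ x : Tors E p, σ • x - x ∈ N := fun q hq hqp A hA σ hσ =>
    trivial_of_unipotent hV hN.ne_bot hN.ne_top (galoisRepModuleEnd ℚ E p σ)
      (fun x hx => hN.stable σ x hx)
      (fun v => hu q hq hqp A hA σ hσ v)
  obtain ⟨A₀, hA₀⟩ := FLTA.Galois.exists_liesOverPrime hp
  obtain ⟨M, hM, hMmem⟩ := hM' A₀ hA₀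
  rcases trivial_or_trivial_of_sub_mem hV hN.ne_top hM
      ((galoisRepModuleEnd ℚ E p) '' (A₀.inertiaSubgroupIn ℚ : Set _))
      (by rintro f ⟨σ, -, rfl⟩ x hx; exact hN.stable σ x hx)
      (by rintro f ⟨σ, hσ, rfl⟩ v; exact hMmem σ hσ v) with h | h
  · refine Or.inl (forall_smul_eq_of_inertia hE hN.stable fun q hq A hA σ hσ => ?_)
    by_cases hqp : q = p
    · subst hqp
      obtain ⟨g, rfl⟩ := FLTA.Galois.exists_smul_eq hp hA₀ hA
      intro x hx
      have h1 := h _ ⟨g⁻¹ * σ * g, (FLTA.Galois.inertiaSubgroupIn_smul_iff g).mp hσ, rfl⟩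
        (g⁻¹ • x) (hN.stable _ x hx)
      rw [galoisRepModuleEnd_apply, mul_smul, smul_inv_smul, mul_smul] at h1
      exact MulAction.injective g⁻¹ h1
    · exact (away q hq hqp A hA σ hσ).1
  · refine Or.inr (forall_sub_mem_of_inertia hE hN.stable fun q hq A hA σ hσ => ?_)
    by_cases hqp : q = p
    · subst hqp
      obtain ⟨g, rfl⟩ := FLTA.Galois.exists_smul_eq hp hA₀ hA
      intro x
      have h1 := h _ ⟨g⁻¹ * σ * g, (FLTA.Galois.inertiaSubgroupIn_smul_iff g).mp hσ, rfl⟩ (g⁻¹ • x)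
      rw [galoisRepModuleEnd_apply, mul_smul, smul_inv_smul, mul_smul, ← smul_sub] at h1
      simpa using hN.stable g _ h1
    · exact (away q hq hqp A hA σ hσ).2


theorem subTrivial_or_quotTrivial (W : WeierstrassCurve ℤ) (hΔ : W.Δ ≠ 0)
    (hW : W.IsSemistableModel) {p : ℕ} (hp : p.Prime) (hp2 : p ≠ 2)
    {N : Submodule (ZMod p) (Tors (W.map (Int.castRingHom ℚ)) p)}
    (hN : IsStableLine (W.map (Int.castRingHom ℚ)) p N) :
    SubTrivial (W.map (Int.castRingHom ℚ)) p N ∨
      QuotTrivial (W.map (Int.castRingHom ℚ)) p N := by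
  have : Fact p.Prime := ⟨hp⟩
  have hE : (W.map (Int.castRingHom ℚ)).Δ ≠ 0 := by
    rw [WeierstrassCurve.map_Δ]; simpa using hΔ
  exact subTrivial_or_quotTrivial_aux hp hE hN
    (fun q hq hqp A hA σ hσ v => inertia_unipotent W hΔ hW hp hq hqp A hA σ hσ v)
    (fun A hA => exists_proper_sub_mem W hΔ hW hp hp2 hN A hA)

end FLTA.EllReducible
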