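/-
Owner: helper21.  Both mod `3` and mod `5` reducible gives a rational point of order `15` on an
isogenous curve (single Vélu quotient).
-/
import Fermat.Agent.EllReducible.Line
import Fermat.Agent.EllReducible.IntegralTorsion
import Fermat.Agent.EllIsogeny.Quotient
import Mathlib.GroupTheory.Perm.Cycle.Type
import Mathlib.Algebra.BigOperators.GroupWithZero.Action

set_option autoImplicit false
set_option maxHeartbeats 200000

open WeierstrassCurve WeierstrassCurve.Affine WeierstrassCurve.Affine.Point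

open scoped WeierstrassCurve.Affine

namespace FLTA.EllReducible

local notation "Qbar" => AlgebraicClosure ℚ

/-- `EllIsogeny.exists_quotient`, restated with the `Algebra ℚ ℚ̄` instance of the Prelude. -/
theorem exists_quotient' (E : WeierstrassCurve ℚ) [E.IsElliptic]
    (K : AddSubgroup (E⁄Qbar).Point) (hK : Finite K) (hodd : Odd (Nat.card K))
    (hstab : ∀ σ : Qbar ≃ₐ[ℚ] Qbar, ∀ x ∈ K, σ • x ∈ K) :
    ∃ (E' : WeierstrassCurve ℚ) (_ : E'.IsElliptic) (φ : (E⁄Qbar).Point →+ (E'⁄Qbar).Point),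
      φ.ker = K ∧ ∀ (σ : Qbar ≃ₐ[ℚ] Qbar) (P : (E⁄Qbar).Point), φ (σ • P) = σ • φ P :=
  @EllIsogeny.exists_quotient E _ K hK hodd hstab

theorem exists_addOrderOf_eq_of_eq {E E' : WeierstrassCurve ℚ} (h : E' = E)
    (Q : E'.toAffine.Point) : ∃ Q' : E.toAffine.Point, addOrderOf Q' = addOrderOf Q := by
  subst h
  exact ⟨Q, rfl⟩

/-- A Galois fixed `ℚ̄`-point comes from a rational point of the same order. -/
theorem exists_ratPoint_of_fixed (E : WeierstrassCurve ℚ) {P : (E⁄Qbar).Point}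
    (hP : ∀ σ : Qbar ≃ₐ[ℚ] Qbar, σ • P = P) :
    ∃ Q : E.toAffine.Point, addOrderOf Q = addOrderOf P := by
  have : IsGalois ℚ Qbar := isGalois_qbar
  rcases P with _ | ⟨x, y, h⟩
  · exact ⟨0, (addOrderOf_zero (G := E.toAffine.Point)).trans
      (addOrderOf_zero (G := (E⁄Qbar).Point)).symm⟩
  · have hfix : ∀ σ : Qbar ≃ₐ[ℚ] Qbar, σ x = x ∧ σ y = y := fun σ => by
      have := hP σ
      rwa [algEquiv_smul_def, Affine.Point.map_some, Affine.Point.some.injEq] at this
    obtain ⟨a, ha⟩ := (InfiniteGalois.mem_range_algebraMap_iff_fixed (k := ℚ) x).2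
      fun σ => (hfix σ).1
    obtain ⟨b, hb⟩ := (InfiniteGalois.mem_range_algebraMap_iff_fixed (k := ℚ) y).2
      fun σ => (hfix σ).2
    subst ha hb
    have hself : (E⁄ℚ) = E := by
      show E.map (algebraMap ℚ ℚ) = E
      rw [Subsingleton.elim (algebraMap ℚ ℚ) (RingHom.id ℚ), WeierstrassCurve.map_id]
    have hns : (E⁄ℚ).Nonsingular a b :=
      (Affine.baseChange_nonsingular (W := E) (f := Algebra.ofId ℚ Qbar) (RingHom.injective _) a b).1 h
    obtain ⟨Q, hQ⟩ := exists_addOrderOf_eq_of_eq hself (.some a b hns)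
    refine ⟨Q, hQ.trans ?_⟩
    exact (addOrderOf_injective (Affine.Point.map (W' := E) (Algebra.ofId ℚ Qbar))
      (Affine.Point.map_injective (W' := E) _) (.some a b hns)).symm

/-- A subgroup `M ⊆ E[p]` and a point `a ∈ E[p] \ M` fixed modulo `M`. -/
theorem exists_fixed_mod (E : WeierstrassCurve ℚ) {p : ℕ}
    {N : Submodule (ZMod p) (Tors E p)} (hN : IsStableLine E p N)
    (h : SubTrivial E p N ∨ QuotTrivial E p N) :
    ∃ (M : AddSubgroup (E⁄Qbar).Point) (a : (E⁄Qbar).Point),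
      (∀ m ∈ M, p • m = 0) ∧ (∀ σ : Qbar ≃ₐ[ℚ] Qbar, ∀ m ∈ M, σ • m ∈ M) ∧
      p • a = 0 ∧ a ∉ M ∧ ∀ σ : Qbar ≃ₐ[ℚ] Qbar, σ • a - a ∈ M := by
  have hp : ∀ v : Tors E p, p • (v : (E⁄Qbar).Point) = 0 := fun v => by
    have := v.2
    rw [Submodule.mem_torsionBy_iff] at this
    rwa [← natCast_zsmul]
  rcases h with h | h
  · obtain ⟨v, hv, hv0⟩ := N.ne_bot_iff.1 hN.ne_bot
    refine ⟨⊥, v, fun m hm => ?_, fun σ m hm => ?_, hp v, fun h0 => hv0 ?_, fun σ => ?_⟩
    · rw [AddSubgroup.mem_bot] at hm; simp [hm]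
    · rw [AddSubgroup.mem_bot] at hm ⊢; subst hm; exact smul_zero (A := (E⁄Qbar).Point) σ
    · exact Subtype.ext (AddSubgroup.mem_bot.1 h0)
    · rw [AddSubgroup.mem_bot, sub_eq_zero]
      exact congrArg Subtype.val (h σ v hv)
  · obtain ⟨v, hv⟩ : ∃ v, v ∉ N := by
      by_contra hno
      push Not at hno
      exact hN.ne_top ((Submodule.eq_top_iff'.2 hno))
    let M : AddSubgroup (E⁄Qbar).Point :=
      N.toAddSubgroup.map ((Submodule.torsionBy ℤ (E⁄Qbar).Point p).toAddSubgroup.subtype)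
    refine ⟨M, v, ?_, ?_, hp v, ?_, fun σ => ?_⟩
    · rintro _ ⟨w, -, rfl⟩
      exact hp w
    · rintro σ _ ⟨w, hw, rfl⟩
      let w' : Tors E p := w
      exact ⟨σ • w', hN.stable σ w' hw, rfl⟩
    · rintro ⟨w, hw, hwv⟩
      exact hv (by rwa [show w = v from Subtype.ext hwv] at hw)
    · exact ⟨σ • v - v, h σ v, rfl⟩

/-- Both mod `3` and mod `5` with trivial sub or quotient: a curve with a rational point of order
`15`. -/
theorem exists_point_order_fifteen (E : WeierstrassCurve ℚ) [E.IsElliptic]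
    {N₃ : Submodule (ZMod 3) (Tors E 3)} (hN₃ : IsStableLine E 3 N₃)
    (h₃ : SubTrivial E 3 N₃ ∨ QuotTrivial E 3 N₃)
    {N₅ : Submodule (ZMod 5) (Tors E 5)} (hN₅ : IsStableLine E 5 N₅)
    (h₅ : SubTrivial E 5 N₅ ∨ QuotTrivial E 5 N₅) :
    ∃ (E' : WeierstrassCurve ℚ) (_ : E'.IsElliptic) (P : E'.toAffine.Point),
      addOrderOf P = 15 := by
  have hΔ : E.Δ ≠ 0 := E.isUnit_Δ.ne_zero
  obtain ⟨M, a, hM, hMs, ha, haM, hfa⟩ := exists_fixed_mod E hN₃ h₃
  obtain ⟨M', b, hM', hM's, hb, hbM, hfb⟩ := exists_fixed_mod E hN₅ h₅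
  set K := M ⊔ M' with hK
  have hdec : ∀ k ∈ K, ∃ m ∈ M, ∃ m' ∈ M', m + m' = k := fun k hk => AddSubgroup.mem_sup.1 hk
  have h15 : ∀ k ∈ K, 15 • k = 0 := fun k hk => by
    obtain ⟨m, hm, m', hm', rfl⟩ := hdec k hk
    rw [nsmul_add]
    have e1 : 15 • m = 0 := by
      rw [show (15 : ℕ) = 5 * 3 from rfl, mul_nsmul', hM m hm, nsmul_zero]
    have e2 : 15 • m' = 0 := by
      rw [show (15 : ℕ) = 3 * 5 from rfl, mul_nsmul', hM' m' hm', nsmul_zero]
    rw [e1, e2, add_zero]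
  have : Finite (Tors E 3) := finite_tors E hΔ (by norm_num)
  have : Finite (Tors E 5) := finite_tors E hΔ (by norm_num)
  have hfin : (K : Set (E⁄Qbar).Point).Finite := by
    refine (Set.finite_range fun t : Tors E 3 × Tors E 5 =>
      (t.1 : (E⁄Qbar).Point) + t.2).subset ?_
    intro k hk
    obtain ⟨m, hm, m', hm', rfl⟩ := hdec k hk
    exact ⟨(⟨m, by rw [Submodule.mem_torsionBy_iff, natCast_zsmul]; exact hM m hm⟩,
      ⟨m', by rw [Submodule.mem_torsionBy_iff, natCast_zsmul]; exact hM' m' hm'⟩), rfl⟩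
  have hKfin : Finite K := hfin.to_subtype
  have hodd : Odd (Nat.card K) := by
    rw [← Nat.not_even_iff_odd, even_iff_two_dvd]
    intro h2
    have := Fact.mk Nat.prime_two
    obtain ⟨g, hg⟩ := exists_prime_addOrderOf_dvd_card' 2 h2
    have h15g : addOrderOf g ∣ 15 :=
      addOrderOf_dvd_of_nsmul_eq_zero (Subtype.ext (h15 g g.2))
    rw [hg] at h15g
    omega
  have hstab : ∀ σ : Qbar ≃ₐ[ℚ] Qbar, ∀ k ∈ K, σ • k ∈ K := fun σ k hk => by
    obtain ⟨m, hm, m', hm', rfl⟩ := hdec k hk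
    rw [show σ • (m + m') = σ • m + σ • m' from smul_add (A := (E⁄Qbar).Point) σ m m']
    exact add_mem (AddSubgroup.mem_sup_left (hMs σ m hm)) (AddSubgroup.mem_sup_right (hM's σ m' hm'))
  obtain ⟨E', hE', φ, hker, hφ⟩ := exists_quotient' E K hKfin hodd hstab
  have hmemker : ∀ z, φ z = 0 ↔ z ∈ K := fun z => by rw [← hker]; rfl
  have hfixa : ∀ σ : Qbar ≃ₐ[ℚ] Qbar, σ • φ a = φ a := fun σ => by
    rw [← hφ, ← sub_eq_zero, ← map_sub, hmemker]; exact AddSubgroup.mem_sup_left (hfa σ)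
  have hfixb : ∀ σ : Qbar ≃ₐ[ℚ] Qbar, σ • φ b = φ b := fun σ => by
    rw [← hφ, ← sub_eq_zero, ← map_sub, hmemker]; exact AddSubgroup.mem_sup_right (hfb σ)
  have hne : φ a ≠ 0 ∧ φ b ≠ 0 := by
    constructor
    · rw [Ne, hmemker]
      intro h
      obtain ⟨m, hm, m', hm', hmm⟩ := hdec a h
      have h3 : 3 • m' = 0 := by
        rw [show m' = a - m from eq_sub_of_add_eq' hmm, nsmul_sub, ha, hM m hm, sub_zero]
      have : m' = 0 := by
        have := hM' m' hm'
        rw [show (5 : ℕ) = 3 + 2 from rfl, add_nsmul, h3, zero_add] at this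
        rw [show (3 : ℕ) = 2 + 1 from rfl, add_nsmul, this, one_nsmul, zero_add] at h3
        exact h3
      rw [this, add_zero] at hmm
      exact haM (hmm ▸ hm)
    · rw [Ne, hmemker]
      intro h
      obtain ⟨m, hm, m', hm', hmm⟩ := hdec b h
      have h5 : 5 • m = 0 := by
        rw [show m = b - m' from eq_sub_of_add_eq hmm, nsmul_sub, hb, hM' m' hm', sub_zero]
      have : m = 0 := by
        have h3 := hM m hm
        rw [show (5 : ℕ) = 3 + 2 from rfl, add_nsmul, h3, zero_add] at h5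
        rw [show (3 : ℕ) = 2 + 1 from rfl, add_nsmul, h5, one_nsmul, zero_add] at h3
        exact h3
      rw [this, zero_add] at hmm
      exact hbM (hmm ▸ hm')
  obtain ⟨P, hP⟩ := exists_ratPoint_of_fixed E' (P := φ a + φ b)
    fun σ => (smul_add (A := (E'⁄Qbar).Point) σ (φ a) (φ b)).trans (by rw [hfixa, hfixb])
  refine ⟨E', hE', P, hP.trans ?_⟩
  have := Fact.mk (show Nat.Prime 3 by norm_num)
  have := Fact.mk (show Nat.Prime 5 by norm_num)
  have ea : addOrderOf (φ a) = 3 :=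
    addOrderOf_eq_prime (by rw [← map_nsmul, ha, _root_.map_zero]) hne.1
  have eb : addOrderOf (φ b) = 5 :=
    addOrderOf_eq_prime (by rw [← map_nsmul, hb, _root_.map_zero]) hne.2
  rw [(AddCommute.all _ _).addOrderOf_add_eq_mul_addOrderOf_of_coprime (by rw [ea, eb]; norm_num),
    ea, eb]

end FLTA.EllReducible
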