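import Fermat.Agent.S10
import Fermat.Agent.EllReducible.Fifteen
import Fermat.Agent.EllReducible.Global

/-! # The mod 5 representation of a Frey curve is irreducible -/

set_option autoImplicit false

open WeierstrassCurve WeierstrassCurve.Affine WeierstrassCurve.Affine.Point

open scoped WeierstrassCurve.Affine

namespace FLTA.EllReducible

local notation "Qbar" => AlgebraicClosure ℚ

/-- A curve over `ℚ` with two rational points of order two has neither a stable line at `5` with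
trivial sub nor one with trivial quotient. -/
theorem false_of_stableLine_five {E : WeierstrassCurve ℚ} [E.IsElliptic]
    {T₁ T₂ : E.toAffine.Point} (h₁ : addOrderOf T₁ = 2) (h₂ : addOrderOf T₂ = 2) (hne : T₁ ≠ T₂)
    {N : Submodule (ZMod 5) (Tors E 5)} (hN : IsStableLine E 5 N)
    (h : SubTrivial E 5 N ∨ QuotTrivial E 5 N) : False := by
  haveI : Fact (Nat.Prime 5) := ⟨by norm_num⟩
  have key : ∀ (E' : WeierstrassCurve ℚ) (_ : E'.IsElliptic) (Q : E'.toAffine.Point)
      (U₁ U₂ : E'.toAffine.Point), addOrderOf Q = 5 → addOrderOf U₁ = 2 → addOrderOf U₂ = 2 →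
      U₁ ≠ U₂ → False := by
    intro E' hE' Q U₁ U₂ hQ hu₁ hu₂ hu
    have hQ0 : Q ≠ 0 := fun h0 => by rw [h0, addOrderOf_zero] at hQ; norm_num at hQ
    exact FLTA.EllPoints.Five.not_isSquare_discriminant hE'.isUnit.ne_zero hQ0
      (hQ ▸ addOrderOf_nsmul_eq_zero Q)
      (FLTA.EllPoints.isSquare_discriminant_of_two_torsion hu₁ hu₂ hu)
  rcases h with h | h
  · obtain ⟨v, hv, hv0⟩ := N.ne_bot_iff.1 hN.ne_bot
    obtain ⟨Q, hQ⟩ := exists_ratPoint_of_fixed E (P := (v : (E⁄Qbar).Point))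
      fun σ => congrArg Subtype.val (h σ v hv)
    refine key E inferInstance Q T₁ T₂ (hQ.trans (addOrderOf_eq_prime ?_ ?_)) h₁ h₂ hne
    · have := v.2
      rwa [Submodule.mem_torsionBy_iff, natCast_zsmul] at this
    · exact fun h0 => hv0 (Subtype.ext h0)
  · obtain ⟨E', hE', ⟨Q, hQ⟩, htwo⟩ :=
      FLTA.EllIsogeny.exists_ratPoint_of_cofixed E (p := 5) (by norm_num) (by omega)
        (hN.hasGaloisStableCofixedLine h)
    obtain ⟨U₁, U₂, hu₁, hu₂, hu⟩ := htwo ⟨T₁, T₂, h₁, h₂, hne⟩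
    exact key E' hE' Q U₁ U₂ hQ hu₁ hu₂ hu

/-- The mod `5` representation of a Frey curve is irreducible, whatever the exponent. -/
theorem frey_modRepIsIrreducible_five (P : FreyPackage) :
    P.freyCurveInt.ModRepIsIrreducible 5 := by
  haveI : Fact (Nat.Prime 5) := ⟨by norm_num⟩
  by_contra h
  have hΔ := FLTA.Wiring.freyCurveInt_Δ_ne_zero P
  have hE : (P.freyCurveInt.map (Int.castRingHom ℚ)).Δ ≠ 0 := by
    rw [WeierstrassCurve.map_Δ]; simpa using hΔ
  haveI : (P.freyCurveInt.map (Int.castRingHom ℚ)).IsElliptic := ⟨isUnit_iff_ne_zero.2 hE⟩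
  obtain ⟨N, hN⟩ := exists_stableLine _ hE (by norm_num : Nat.Prime 5) h
  have htwo : ∃ T₁ T₂ : (P.freyCurveInt.map (Int.castRingHom ℚ)).toAffine.Point,
      addOrderOf T₁ = 2 ∧ addOrderOf T₂ = 2 ∧ T₁ ≠ T₂ := by
    rw [FLTA.Wiring.freyCurveInt_map_rat]
    exact Fermat.Agent.S10.exists_two_torsion P
  obtain ⟨T₁, T₂, h₁, h₂, hne⟩ := htwo
  exact false_of_stableLine_five h₁ h₂ hne hN
    (subTrivial_or_quotTrivial _ hΔ (FLTA.Wiring.freyCurveInt_isSemistableModel P)
      (by norm_num) (by norm_num) hN)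

end FLTA.EllReducible
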