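/-
A rational point with nonsingular reduction at 2 on `y² + xy = x³ + a₂x² + a₄x`, `a₄` even:
three times it reduces to infinity.
-/
import Fermat.Agent.EllReduction.Defs
import Mathlib.FieldTheory.AbsoluteGaloisGroup
import Mathlib.Tactic

set_option autoImplicit false

open WeierstrassCurve

namespace FLTA.EllReducible

variable {L : Type*} [Field L] [DecidableEq L]

theorem inE1_three_nsmul (E : WeierstrassCurve.Affine L) (A : ValuationSubring L)
    (h2 : IsLocalRing.residue A 2 = 0) (ha1 : E.a₁ = 1) (ha3 : E.a₃ = 0) (ha6 : E.a₆ = 0)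
    (a2 a4 : A) (ha2 : E.a₂ = a2) (ha4 : E.a₄ = a4) (ha4' : IsLocalRing.residue A a4 = 0)
    (X Y : A) (h : E.Nonsingular (X : L) (Y : L)) (hX : IsLocalRing.residue A X = 1)
    (hY : IsLocalRing.residue A Y = 0 ∨ IsLocalRing.residue A Y = 1) :
    FLTA.EllReduction.InE1 A E ((3 : ℕ) • Affine.Point.some (X : L) (Y : L) h) := by
  have hk2 : (2 : IsLocalRing.ResidueField A) = 0 := by rw [← map_ofNat (IsLocalRing.residue A)]; exact h2
  set r := IsLocalRing.residue A
  have hyy : r Y * r Y + r Y = 0 := by
    rcases hY with e | e <;> rw [e]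
    · ring
    · linear_combination hk2
  -- the equation gives `a₂ ≡ 1`
  have heq : Y ^ 2 + X * Y = X ^ 3 + a2 * X ^ 2 + a4 * X := by
    have := (E.equation_iff _ _).mp h.1
    rw [ha1, ha2, ha3, ha4, ha6] at this
    exact Subtype.ext (by push_cast; linear_combination this)
  have ha2' : r a2 = 1 := by
    have := congrArg r heq
    simp only [map_add, map_mul, map_pow, hX, ha4'] at this
    linear_combination hyy - this - hk2
  -- doubling
  set D : A := 2 * Y + X with hD
  have hrD : r D = 1 := by simp only [hD, map_add, map_mul, hX]; rw [h2]; ring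
  obtain ⟨u, hu⟩ : IsUnit D := (IsLocalRing.residue_ne_zero_iff_isUnit D).mp (by simp [r] at hrD; simp [hrD])
  set lam : A := (3 * X ^ 2 + 2 * a2 * X + a4 - Y) * (↑u⁻¹ : A) with hlam
  have hru : r (↑u⁻¹ : A) = 1 := by
    have := congrArg r u.inv_mul
    rw [map_mul, hu, hrD, mul_one, map_one] at this
    exact this
  have hrlam : r lam = 1 + r Y := by
    simp only [hlam, map_mul, map_sub, map_add, map_pow, hX, ha4', hru, map_ofNat]
    linear_combination (1 + r a2 - r Y) * hk2
  have hD0 : (D : L) ≠ 0 := by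
    intro h0
    have : D = 0 := Subtype.ext h0
    rw [this, map_zero] at hrD
    exact zero_ne_one hrD
  have c2 : ((2 : A) : L) = 2 := map_ofNat A.subtype 2
  have c3 : ((3 : A) : L) = 3 := map_ofNat A.subtype 3
  have hny : (Y : L) ≠ E.negY X Y := by
    simp only [Affine.negY, ha1, ha3]
    intro h0
    apply hD0
    rw [hD]; push_cast; rw [c2]
    linear_combination h0
  have hslope : E.slope X X Y Y = (lam : L) := by
    rw [Affine.slope_of_Y_ne rfl hny, hlam]
    have hinv : ((↑u⁻¹ : A) : L) = (D : L)⁻¹ := eq_inv_of_mul_eq_one_left (by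
      have := congrArg Subtype.val u.inv_mul
      rw [hu] at this
      simpa using this)
    push_cast
    rw [hinv, hD]
    push_cast
    simp only [Affine.negY, ha1, ha2, ha3, ha4, c2, c3]
    ring
  set X2 : A := lam ^ 2 + lam - a2 - X - X with hX2
  set Y2 : A := -(lam * (X2 - X) + Y) - X2 with hY2
  have hrX2 : r X2 = 1 := by
    simp only [hX2, map_sub, map_add, map_pow, hX, hrlam, ha2']
    linear_combination hyy + (r Y - 1) * hk2
  have hrY : r (Y - Y2) = 1 := by
    simp only [hY2, map_sub, map_add, map_neg, map_mul, hX, hrX2, hrlam]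
    linear_combination (r Y) * hk2
  have haddX : E.addX X X (E.slope X X Y Y) = (X2 : L) := by
    rw [hslope, hX2]; push_cast; simp only [Affine.addX, ha1, ha2]; ring
  have haddY : E.addY X X Y (E.slope X X Y Y) = (Y2 : L) := by
    simp only [Affine.addY, Affine.negAddY, Affine.negY, ha1, ha3, haddX]
    rw [hslope, hY2]; push_cast; ring
  obtain ⟨h2P, e2⟩ : ∃ h2P : E.Nonsingular (X2 : L) (Y2 : L),
      (Affine.Point.some (X : L) (Y : L) h + Affine.Point.some (X : L) (Y : L) h : E.Point) =
        Affine.Point.some (X2 : L) (Y2 : L) h2P := by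
    refine ⟨haddX ▸ haddY ▸ Affine.nonsingular_add h h (fun hh => hny hh.2), ?_⟩
    rw [Affine.Point.add_self_of_Y_ne hny]
    simp only [Affine.Point.some.injEq]
    exact ⟨haddX, haddY⟩
  have e3 : (3 : ℕ) • (Affine.Point.some (X : L) (Y : L) h : E.Point) =
      Affine.Point.some (X : L) (Y : L) h + Affine.Point.some (X2 : L) (Y2 : L) h2P := by
    rw [← e2]; abel
  rw [e3]
  by_cases hx : (X : L) = (X2 : L)
  · by_cases hy : (Y : L) = E.negY X2 Y2
    · rw [Affine.Point.add_of_Y_eq hx hy]; trivial
    · exfalso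
      have := Affine.Y_eq_of_Y_ne h.1 h2P.1 hx hy
      rw [Subtype.ext this, sub_self, map_zero] at hrY
      exact zero_ne_one hrY
  rw [Affine.Point.add_of_X_ne hx]
  set m := E.slope (X : L) X2 Y Y2 with hm
  show E.addX X X2 m ∉ A
  intro hmem
  have hmA : m ∈ A := by
    rcases A.mem_or_inv_mem m with hi | hi
    · exact hi
    · by_cases hm0 : m = 0
      · simp [hm0]
      have hc : m ^ 2 + m ∈ A := by
        have : m ^ 2 + m = E.addX X X2 m + a2 + X + X2 := by
          simp only [Affine.addX, ha1, ha2]; ring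
        rw [this]
        exact add_mem (add_mem (add_mem hmem a2.2) X.2) X2.2
      have : m = (m ^ 2 + m) * m⁻¹ - 1 := by field_simp; ring
      rw [this]
      exact sub_mem (mul_mem hc hi) (one_mem A)
  have hsl : Y - Y2 = ⟨m, hmA⟩ * (X - X2) := Subtype.ext (by
    push_cast
    rw [hm, Affine.slope_of_X_ne hx]
    field_simp [sub_ne_zero.mpr hx])
  rw [hsl, map_mul, map_sub, hX, hrX2, sub_self, mul_zero] at hrY
  exact zero_ne_one hrY

/-- A `σ`-fixed element of a place over 2 has residue 0 or 1. -/
theorem residue_eq_zero_or_one (A : ValuationSubring (AlgebraicClosure ℚ))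
    (h2 : IsLocalRing.residue A 2 = 0) (x : A) (q : ℚ)
    (hq : (x : AlgebraicClosure ℚ) = algebraMap ℚ (AlgebraicClosure ℚ) q) :
    IsLocalRing.residue A x = 0 ∨ IsLocalRing.residue A x = 1 := by
  have hint : ∀ n : ℤ, IsLocalRing.residue A (n : A) = 0 ∨ IsLocalRing.residue A (n : A) = 1 := by
    intro n
    obtain ⟨k, hk | hk⟩ := Int.even_or_odd' n
    · left; rw [hk]; push_cast; rw [map_mul, h2, zero_mul]
    · right; rw [hk]; push_cast; rw [map_add, map_mul, h2, zero_mul, zero_add, map_one]
  have hmul : (x : A) * ((q.den : ℤ) : A) = ((q.num : ℤ) : A) := Subtype.ext (by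
    push_cast
    rw [hq, ← map_natCast (algebraMap ℚ (AlgebraicClosure ℚ)), ← map_mul, Rat.mul_den_eq_num,
      map_intCast])
  have hr := congrArg (IsLocalRing.residue A) hmul
  rw [map_mul] at hr
  rcases hint (q.den : ℤ) with hd | hd
  · rw [hd, mul_zero] at hr
    exfalso
    have h2k : ∀ n : ℤ, IsLocalRing.residue A (n : A) = 0 → (2 : ℤ) ∣ n := by
      intro n hn
      obtain ⟨k, hk | hk⟩ := Int.even_or_odd' n
      · exact ⟨k, hk⟩
      · rw [hk] at hn; push_cast at hn
        rw [map_add, map_mul, h2, zero_mul, zero_add, map_one] at hn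
        exact absurd hn one_ne_zero
    have hden : 2 ∣ q.den := Int.natCast_dvd_natCast.mp (h2k _ hd)
    have hnum : 2 ∣ q.num.natAbs := Int.natAbs_dvd_natAbs.mpr (h2k _ hr.symm)
    exact absurd (q.reduced ▸ Nat.dvd_gcd hnum hden) (by decide)
  · rw [hd, mul_one] at hr
    exact hr ▸ hint q.num

end FLTA.EllReducible
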