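/-
The Frey curve has no rational point of order `p` (used for: sub character nontrivial).
-/
import Fermat.Agent.EllReducible.FreyTwo
import Fermat.Agent.EllReducible.Basic
import Fermat.Agent.EllReduction.Api
import Fermat.Agent.Galois.Places
import Fermat.Agent.Wiring.FreyModel

set_option autoImplicit false

open WeierstrassCurve

open scoped WeierstrassCurve.Affine

namespace FLTA.EllReducible

theorem mem_range_of_forall_fixed {x : AlgebraicClosure ℚ}
    (h : ∀ σ : AlgebraicClosure ℚ ≃ₐ[ℚ] AlgebraicClosure ℚ, σ x = x) :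
    ∃ q : ℚ, x = algebraMap ℚ (AlgebraicClosure ℚ) q := by
  obtain ⟨q, hq⟩ := (InfiniteGalois.mem_range_algebraMap_iff_fixed x).mpr h
  exact ⟨q, hq.symm⟩

theorem frey_prime_not_dvd_factorization (P : FreyPackage) :
    ¬ P.p ∣ P.freyCurveInt.Δ.natAbs.factorization 2 := by
  intro hdvd
  have h := congrArg Int.natAbs (FLTA.Wiring.freyCurveInt_Δ_mul P)
  rw [← mul_pow, ← mul_pow, ← pow_mul, Int.natAbs_mul, Int.natAbs_pow] at h
  have hΔ : P.freyCurveInt.Δ.natAbs ≠ 0 :=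
    Int.natAbs_ne_zero.mpr (FLTA.Wiring.freyCurveInt_Δ_ne_zero P)
  have h2 := congrArg (fun n : ℕ => n.factorization 2) h
  simp only [Int.reduceAbs] at h2
  rw [show (256 : ℕ) = 2 ^ 8 by norm_num, Nat.factorization_mul (pow_ne_zero _ two_ne_zero) hΔ,
    Nat.factorization_pow, Nat.factorization_pow] at h2
  simp [Nat.Prime.factorization Nat.prime_two] at h2
  have h8 : P.p ∣ 8 := (Nat.dvd_add_left hdvd).mp (by rw [h2]; exact dvd_mul_of_dvd_left (dvd_mul_right _ _) _)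
  have := Nat.le_of_dvd (by norm_num) h8
  have h5 := P.hp5
  have hpp := P.pp
  interval_cases hp : P.p <;> first | omega | norm_num at hpp

theorem frey_a₄_even (P : FreyPackage) : (2 : ℤ) ∣ P.freyCurveInt.a₄ := by
  obtain ⟨t, ht⟩ := FLTA.Wiring.frey_sixteen_dvd P
  have hb : (2 : ℤ) ∣ P.b := (ZMod.intCast_zmod_eq_zero_iff_dvd P.b 2).1 P.hb2
  have h32 : (2 : ℤ) ^ 5 ∣ P.b ^ P.p :=
    (pow_dvd_pow_of_dvd hb 5).trans (pow_dvd_pow P.b P.hp5)
  have h' : (32 : ℤ) ∣ -(P.a ^ P.p) * P.b ^ P.p := dvd_mul_of_dvd_right (by simpa using h32) _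
  show (2 : ℤ) ∣ -(P.a ^ P.p) * P.b ^ P.p / 16
  rw [ht] at h' ⊢
  rw [Int.mul_ediv_cancel_left _ (by norm_num)]
  omega

theorem frey_not_fixed (F : FreyPackage) {v : Tors (F.freyCurveInt.map (Int.castRingHom ℚ)) F.p}
    (hv0 : v ≠ 0)
    (hfix : ∀ σ : AlgebraicClosure ℚ ≃ₐ[ℚ] AlgebraicClosure ℚ, σ • v = v) : False := by
  obtain ⟨A, hA⟩ := FLTA.Galois.exists_liesOverPrime Nat.prime_two
  obtain ⟨Q, hfix', hpv, hv⟩ : ∃ Q : FLTA.EllReduction.GeomPoint F.freyCurveInt,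
      (∀ σ : AlgebraicClosure ℚ ≃ₐ[ℚ] AlgebraicClosure ℚ, σ • Q = Q) ∧ F.p • Q = 0 ∧ Q ≠ 0 := by
    refine ⟨v.1, fun σ => congrArg Subtype.val (hfix σ), ?_, fun h => hv0 (Subtype.ext h)⟩
    rw [← natCast_zsmul]
    exact (Submodule.mem_torsionBy_iff _ _).mp v.2
  clear hv0 hfix v
  have hΔ : F.freyCurveInt.Δ ≠ 0 := FLTA.Wiring.freyCurveInt_Δ_ne_zero F
  have hΔ2 : ((2 : ℕ) : ℤ) ∣ F.freyCurveInt.Δ := by
    have hne : F.freyCurveInt.Δ.natAbs.factorization 2 ≠ 0 := fun h => frey_prime_not_dvd_factorization F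
      (h ▸ dvd_zero _)
    exact Int.natCast_dvd.mpr (Nat.dvd_of_factorization_pos hne)
  have hc4 : ¬ ((2 : ℕ) : ℤ) ∣ F.freyCurveInt.c₄ :=
    FLTA.Wiring.freyCurveInt_isSemistableModel F 2 Nat.prime_two hΔ2
  have hp2 : ¬ 2 ∣ F.p := fun h => by
    have h5 := F.hp5
    have h2 := (Nat.prime_dvd_prime_iff_eq Nat.prime_two F.pp).mp h
    omega
  by_cases h0 : Q ∈ FLTA.EllReduction.E0Z F.freyCurveInt A
  swap
  · exact frey_prime_not_dvd_factorization F
      (FLTA.EllReduction.prime_dvd_factorization_of_not_mem Nat.prime_two hA hΔ hc4 F.pp hpv hfix' h0)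
  rcases h0 with h | ⟨x, y, hns, hQ, hred⟩
  · exact hv h
  subst hQ
  rcases hred with hx | ⟨hx, hy, hred⟩
  · exact hv (FLTA.EllReduction.eq_zero_of_mem_E1Z Nat.prime_two hA hp2 hx hpv)
  have hxy : ∀ σ : AlgebraicClosure ℚ ≃ₐ[ℚ] AlgebraicClosure ℚ, σ x = x ∧ σ y = y := by
    intro σ
    have := hfix' σ
    rw [Affine.Point.algEquiv_smul_def, Affine.Point.map_some, Affine.Point.some.injEq] at this
    exact this
  obtain ⟨qx, hqx⟩ := mem_range_of_forall_fixed fun σ => (hxy σ).1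
  obtain ⟨qy, hqy⟩ := mem_range_of_forall_fixed fun σ => (hxy σ).2
  have h2 : IsLocalRing.residue A 2 = 0 := by
    rw [FLTA.Galois.residue_eq_zero_iff_mem_nonunits]
    have e : ((2 : A) : AlgebraicClosure ℚ) = ((2 : ℕ) : AlgebraicClosure ℚ) := by
      rw [Nat.cast_ofNat]; exact map_ofNat A.subtype 2
    rw [e]; exact hA
  have ha4 : IsLocalRing.residue A ((F.freyCurveInt.a₄ : ℤ) : A) = 0 := by
    obtain ⟨k, hk⟩ := frey_a₄_even F
    rw [show F.freyCurveInt.a₄ = 2 * k from hk]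
    push_cast
    rw [map_mul, h2, zero_mul]
  have hy01 := residue_eq_zero_or_one A h2 ⟨y, hy⟩ qy hqy
  rcases residue_eq_zero_or_one A h2 ⟨x, hx⟩ qx hqx with hx0 | hx1
  · -- the reduction is the node
    rw [hx0] at hred
    rw [Affine.nonsingular_iff, Affine.equation_iff] at hred
    have e4 : ((F.freyCurveInt.a₄ : ℤ) : IsLocalRing.ResidueField A) = 0 := by
      rw [← map_intCast (IsLocalRing.residue A)]; exact ha4
    have e1 : F.freyCurveInt.a₁ = 1 := rfl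
    have e3 : F.freyCurveInt.a₃ = 0 := rfl
    have e6 : F.freyCurveInt.a₆ = 0 := rfl
    simp only [WeierstrassCurve.map_a₁, WeierstrassCurve.map_a₂, WeierstrassCurve.map_a₃,
      WeierstrassCurve.map_a₄, WeierstrassCurve.map_a₆, eq_intCast, e1, e3, e6, e4,
      Int.cast_one, Int.cast_zero] at hred
    rcases hy01 with hy0 | hy1
    · simp [hy0] at hred
    · simp [hy1] at hred
  · have h3 := inE1_three_nsmul
      (((F.freyCurveInt.map (Int.castRingHom ℚ))⁄(AlgebraicClosure ℚ)).toAffine) A h2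
      (by simp [FreyPackage.freyCurveInt]) (by simp [FreyPackage.freyCurveInt])
      (by simp [FreyPackage.freyCurveInt]) ((F.freyCurveInt.a₂ : ℤ) : A) ((F.freyCurveInt.a₄ : ℤ) : A)
      (by simp) (by simp) ha4 ⟨x, hx⟩ ⟨y, hy⟩ hns hx1 hy01
    have h3p : F.p • ((3 : ℕ) • (Affine.Point.some x y hns : FLTA.EllReduction.GeomPoint F.freyCurveInt)) = 0 := by
      rw [smul_comm, hpv, nsmul_zero]
    have h30 := FLTA.EllReduction.eq_zero_of_mem_E1Z (W := F.freyCurveInt) Nat.prime_two hA hp2 h3 h3p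
    have hcop : Nat.Coprime 3 F.p := (Nat.coprime_primes Nat.prime_three F.pp).mpr (by
      have := F.hp5; omega)
    apply hv
    rw [← AddMonoid.addOrderOf_eq_one_iff]
    exact Nat.dvd_one.mp (hcop ▸ Nat.dvd_gcd (addOrderOf_dvd_of_nsmul_eq_zero h30)
      (addOrderOf_dvd_of_nsmul_eq_zero hpv))

end FLTA.EllReducible
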