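/-
Owner: helper21.  Semistable curves: mod `3` or mod `5` irreducible, given that no curve over `ℚ`
has a rational point of order `15`.
-/
import Fermat.Agent.EllReducible.Fifteen
import Fermat.Agent.EllReducible.Global

set_option autoImplicit false

open WeierstrassCurve WeierstrassCurve.Affine WeierstrassCurve.Affine.Point

open scoped WeierstrassCurve.Affine

namespace FLTA.EllReducible

theorem modThreeOrFive_of_no_fifteen
    (h15 : ∀ (E : WeierstrassCurve ℚ) [E.IsElliptic] (P : E.toAffine.Point), addOrderOf P ≠ 15)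
    (W : WeierstrassCurve ℤ) (hΔ : W.Δ ≠ 0) (hW : W.IsSemistableModel) :
    W.ModRepIsIrreducible 3 ∨ W.ModRepIsIrreducible 5 := by
  by_contra h
  rw [not_or] at h
  have hE : (W.map (Int.castRingHom ℚ)).Δ ≠ 0 := by
    rw [WeierstrassCurve.map_Δ]; simpa using hΔ
  have : (W.map (Int.castRingHom ℚ)).IsElliptic := ⟨isUnit_iff_ne_zero.2 hE⟩
  obtain ⟨N₃, hN₃⟩ := exists_stableLine _ hE (by norm_num : Nat.Prime 3) h.1
  obtain ⟨N₅, hN₅⟩ := exists_stableLine _ hE (by norm_num : Nat.Prime 5) h.2
  obtain ⟨E', hE', P, hP⟩ := exists_point_order_fifteen (W.map (Int.castRingHom ℚ)) hN₃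
    (subTrivial_or_quotTrivial W hΔ hW (by norm_num) (by norm_num) hN₃) hN₅
    (subTrivial_or_quotTrivial W hΔ hW (by norm_num) (by norm_num) hN₅)
  exact h15 E' P hP

end FLTA.EllReducible
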